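import Fermat.Agent.TW.LocFlat.Dict

/-!
# PROGRAM G (S56), LOC-flat ORD case (OF-4): existence of Kummer radicals for LC functions

`Ω := PadicAlgCl p`, `Gp := Gal(Ω/ℚ_p)` with the level structure `levelOf (localGaloisToGlobal p)`.
`F` a finite intermediate field containing a primitive `p`-th root of unity `ζp`.  Every
level-constant function `h : Gp → 𝔽_p` which is additive on `G_F` has a Kummer radical over `F`:
`β ≠ 0`, `β ^ p ∈ F`, `σ β = ζp ^ h(σ) · β` for `σ ∈ G_F` (`exists_radical`).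

A thin wrapper of helper14's `LocFlat.exists_isKummerChar` (Hilbert 90 in the LC dialect).
-/

set_option autoImplicit false

open CategoryTheory groupCohomology

namespace Fermat.Agent.TW.OrdCount.Radical0

open Fermat.Agent.CFT Fermat.Agent.TW.LocFlat

variable {p : ℕ} [hp : Fact p.Prime]

local notation "Ω" => PadicAlgCl p

/-- **Existence of radicals.** -/
theorem exists_radical (F : IntermediateField ℚ_[p] Ω) [FiniteDimensional ℚ_[p] F] {ζp : Ω}
    (hζp : IsPrimitiveRoot ζp p) (hζF : ζp ∈ F) (h : (Ω ≃ₐ[ℚ_[p]] Ω) → ZMod p)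
    (hadd : ∀ σ ∈ F.fixingSubgroup, ∀ τ ∈ F.fixingSubgroup, h (σ * τ) = h σ + h τ)
    (hLC : (Fermat.Agent.S55.levelOf (localGaloisToGlobal p)).IsLC₁ h) :
    ∃ β : Ω, β ≠ 0 ∧ β ^ p ∈ F ∧ ∀ σ ∈ F.fixingSubgroup, σ β = ζp ^ (h σ).val * β := by
  -- the LC character of `G_F`
  have hZ : (fun u : ↥F.fixingSubgroup => h (u : Ω ≃ₐ[ℚ_[p]] Ω)) ∈
      LC.Z₁ ((padicLevel p).comap F.fixingSubgroup.subtype) (LCSym.FpRep ↥F.fixingSubgroup p) := by
    refine ⟨(mem_cocycles₁_iff (A := LCSym.FpRep ↥F.fixingSubgroup p) _).2 fun g g' => ?_, ?_⟩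
    · change h ((g * g' : ↥F.fixingSubgroup) : Ω ≃ₐ[ℚ_[p]] Ω) = _ + h g
      rw [Subgroup.coe_mul, hadd _ g.2 _ g'.2, add_comm]
      rfl
    · obtain ⟨N, hN, hinv⟩ := hLC
      refine ⟨N.comap F.fixingSubgroup.subtype, ⟨N, hN, rfl⟩, fun g s hs => ?_⟩
      change h ((g * s : ↥F.fixingSubgroup) : Ω ≃ₐ[ℚ_[p]] Ω) = h g
      rw [Subgroup.coe_mul]
      exact hinv _ _ hs
  obtain ⟨w, hwF, hw0, α, hα, hroot⟩ :=
    exists_isKummerChar hζp (padicLevel p) (padic_hGal p) (padic_hcof p) F hζF ⟨_, hZ⟩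
  have hα0 : α ≠ 0 := by
    rintro rfl
    rw [zero_pow hp.out.ne_zero] at hα
    exact hw0 hα.symm
  exact ⟨α, hα0, hα ▸ hwF, fun σ hσ => hroot ⟨σ, hσ⟩⟩

end Fermat.Agent.TW.OrdCount.Radical0
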