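import Fermat.Agent.TW.OrdCount.Inst
import Fermat.Agent.TW.OrdCount.ExistsRadical
import Fermat.Agent.TW.Bridge.UnrHom
import Fermat.Agent.TW.Bridge.ShapeLocal

/-!
# TW / OrdCount (OF-4): `ordCountOut : OrdCountOut p k`, unconditional

The two inputs of `ordCountOut_of` are discharged:

* `existsRadicalOut` : helper13's `Radical0.exists_radical` (Kummer theory in the LC dialect,
  on top of helper14's `DictKummer.exists_isKummerChar`);
* `exists_normFrobenius` : helper9's `UnrHom.exists_frobenius_lift` +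
  `ShapeLocal.isNormFrobenius_iff`.
-/

set_option autoImplicit false
set_option linter.unusedSectionVars false

namespace Fermat.Agent.TW.OrdCount

open Fermat.Agent.TW.LocFlat

variable (p : ℕ) [hp : Fact p.Prime]

local notation "Ωp" => PadicAlgCl p
local notation "Gp" => (PadicAlgCl p ≃ₐ[ℚ_[p]] PadicAlgCl p)

/-- Kummer existence (helper13). -/
theorem existsRadicalOut : ExistsRadicalOut p := by
  intro F hfd ζp hζp hζF h hadd hLC
  have := hfd
  obtain ⟨β, hβ0, -, hβ⟩ := Radical0.exists_radical F hζp hζF h hadd hLC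
  exact ⟨β, hβ0, hβ⟩

/-- **Export**: every LC function `G_p → ZMod p` additive on `G_F` has a Kummer radical over `F`
(`F` finite over `ℚ_p`, `ζ_p ∈ F`). -/
theorem exists_radical (F : IntermediateField ℚ_[p] Ωp) [FiniteDimensional ℚ_[p] F] {ζp : Ωp}
    (hζp : IsPrimitiveRoot ζp p) (hζF : ζp ∈ F) (h : Gp → ZMod p)
    (hadd : ∀ σ ∈ F.fixingSubgroup, ∀ τ ∈ F.fixingSubgroup, h (σ * τ) = h σ + h τ)
    (hLC : (Fermat.Agent.S55.levelOf (localGaloisToGlobal p)).IsLC₁ h) :
    ∃ β : Ωp, β ≠ 0 ∧ ∀ σ ∈ F.fixingSubgroup, σ β = ζp ^ (h σ).val * β :=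
  existsRadicalOut p F inferInstance ζp hζp hζF h hadd hLC

/-- A norm-Frobenius exists in `G_p` (helper9). -/
theorem exists_normFrobenius : ∃ φ : Gp, ∀ y : Ωp, ‖y‖ ≤ 1 → ‖φ y - y ^ p‖ < 1 := by
  obtain ⟨φ, hφ⟩ := Fermat.Agent.TW.Bridge.UnrHom.exists_frobenius_lift p
  exact ⟨φ, (Fermat.Agent.TW.Bridge.ShapeLocal.isNormFrobenius_iff φ).mpr hφ⟩

/-- **OF-4, the ordinary count**: helper25's contract `OrdCountOut p k` (ruling R13). -/
theorem ordCountOut (k : Type) [Field k] [Fintype k] [CharP k p] : OrdCountOut p k :=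
  ordCountOut_of (existsRadicalOut p) (exists_normFrobenius p) k

end Fermat.Agent.TW.OrdCount
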