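import Mathlib

/-!
# TW / OrdCount: Frobenius-semilinear maps from a finite field (OF-4, linear algebra)

`k` a finite field of characteristic `p`, `κ` a domain of characteristic `p`, `a : k`.  The
`𝔽_p`-linear maps `h : k → κ` with `h (a * c) = h c ^ p` form a `k`-vector space (`k` acting by
precomposition with multiplications) with at most `|k|` elements, hence of dimension `≤ 1`:

* `exists_mul_add_mul_eq_zero` : any two such maps are `k`-linearly dependent.

Proof by counting: with `k₀ = 𝔽_p(a)`, `h` is determined by its values on a `k₀`-basis of `k`, and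
every value of `h` is a root of the `p`-polynomial `∑ mᵢ X ^ (p ^ i)`, `m = minpoly 𝔽_p a`.
-/

set_option autoImplicit false
set_option linter.unusedSectionVars false

open Polynomial

namespace Fermat.Agent.TW.OrdCount

variable (p : ℕ) [Fact p.Prime] {k : Type*} [Field k] [Algebra (ZMod p) k]
  {κ : Type*} [CommRing κ] [Algebra (ZMod p) κ]

/-- The `p`-polynomial `∑ qᵢ X ^ (p ^ i)` attached to `q = ∑ qᵢ X ^ i`. -/
noncomputable def frobPoly (q : (ZMod p)[X]) : κ[X] :=
  q.sum fun n t => C (algebraMap (ZMod p) κ t) * X ^ (p ^ n)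

theorem frobPoly_add (q₁ q₂ : (ZMod p)[X]) :
    frobPoly p (κ := κ) (q₁ + q₂) = frobPoly p q₁ + frobPoly p q₂ := by
  unfold frobPoly
  rw [Polynomial.sum_add_index]
  · intro n; simp
  · intro n t₁ t₂; rw [map_add, map_add, add_mul]

theorem frobPoly_monomial (n : ℕ) (t : ZMod p) :
    frobPoly p (κ := κ) (monomial n t) = C (algebraMap (ZMod p) κ t) * X ^ (p ^ n) := by
  unfold frobPoly
  rw [Polynomial.sum_monomial_index]
  simp

/-- `frobPoly q` has no constant term. -/
theorem frobPoly_eval_zero (q : (ZMod p)[X]) : (frobPoly p (κ := κ) q).eval 0 = 0 := by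
  induction q using Polynomial.induction_on' with
  | add q₁ q₂ h₁ h₂ => rw [frobPoly_add, eval_add, h₁, h₂, add_zero]
  | monomial n t =>
    rw [frobPoly_monomial, eval_mul, eval_pow, eval_X, zero_pow (pow_ne_zero n (Fact.out : p.Prime).ne_zero),
      mul_zero]

variable {p}

/-- Iterating the semilinearity. -/
theorem map_pow_mul {a : k} {h : k →ₗ[ZMod p] κ} (hh : ∀ c, h (a * c) = h c ^ p) (n : ℕ) (c : k) :
    h (a ^ n * c) = h c ^ (p ^ n) := by
  induction n generalizing c with
  | zero => simp
  | succ n ih =>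
    rw [pow_succ, mul_assoc, ih, hh, ← pow_mul, ← pow_succ']

/-- `h (q(a) c) = (frobPoly q)(h c)`. -/
theorem map_aeval_mul {a : k} {h : k →ₗ[ZMod p] κ} (hh : ∀ c, h (a * c) = h c ^ p)
    (q : (ZMod p)[X]) (c : k) : h (aeval a q * c) = (frobPoly p q).eval (h c) := by
  induction q using Polynomial.induction_on' with
  | add q₁ q₂ h₁ h₂ => rw [map_add, add_mul, map_add, h₁, h₂, frobPoly_add, eval_add]
  | monomial n t =>
    rw [frobPoly_monomial, aeval_monomial, mul_assoc, ← Algebra.smul_def, map_smul,
      map_pow_mul hh, eval_mul, eval_C, eval_pow, eval_X, Algebra.smul_def]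

variable (p)

theorem frobPoly_natDegree_le (q : (ZMod p)[X]) :
    (frobPoly p (κ := κ) q).natDegree ≤ p ^ q.natDegree := by
  unfold frobPoly
  rw [Polynomial.sum_def]
  refine natDegree_sum_le_of_forall_le _ _ fun n hn => ?_
  refine (natDegree_C_mul_X_pow_le _ _).trans ?_
  exact Nat.pow_le_pow_right (Fact.out : p.Prime).pos (le_natDegree_of_mem_supp n hn)

theorem frobPoly_coeff_pow (q : (ZMod p)[X]) (d : ℕ) :
    (frobPoly p (κ := κ) q).coeff (p ^ d) = algebraMap (ZMod p) κ (q.coeff d) := by
  unfold frobPoly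
  rw [Polynomial.sum_def, finsetSum_coeff]
  have hinj : ∀ n, p ^ d = p ^ n ↔ d = n := fun n =>
    ⟨fun h => Nat.pow_right_injective (Fact.out : p.Prime).two_le h, fun h => by rw [h]⟩
  by_cases hd : d ∈ q.support
  · rw [Finset.sum_eq_single_of_mem d hd]
    · rw [coeff_C_mul, coeff_X_pow, if_pos rfl, mul_one]
    · intro n _ hnd
      rw [coeff_C_mul, coeff_X_pow, if_neg (fun h => hnd ((hinj n).mp h).symm), mul_zero]
  · rw [notMem_support_iff.mp hd, map_zero]
    refine Finset.sum_eq_zero fun n hn => ?_
    have hnd : n ≠ d := fun h => hd (h ▸ hn)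
    rw [coeff_C_mul, coeff_X_pow, if_neg (fun h => hnd ((hinj n).mp h).symm), mul_zero]

theorem frobPoly_ne_zero [Nontrivial κ] {q : (ZMod p)[X]} (hq : q.Monic) :
    frobPoly p (κ := κ) q ≠ 0 := by
  intro h0
  have h1 := frobPoly_coeff_pow p (κ := κ) q q.natDegree
  rw [h0, coeff_zero, coeff_natDegree, hq.leadingCoeff, map_one] at h1
  exact zero_ne_one h1

variable [Fintype k] [IsDomain κ]

/-- **Frobenius-semilinear maps `k → κ` form a `k`-space of dimension `≤ 1`**: any two are
`k`-linearly dependent (`k` acting by precomposition with multiplications). -/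
theorem exists_mul_add_mul_eq_zero (a : k) (h₁ h₂ : k →ₗ[ZMod p] κ)
    (hh₁ : ∀ c, h₁ (a * c) = h₁ c ^ p) (hh₂ : ∀ c, h₂ (a * c) = h₂ c ^ p) :
    ∃ b₁ b₂ : k, (b₁ ≠ 0 ∨ b₂ ≠ 0) ∧ ∀ c, h₁ (b₁ * c) + h₂ (b₂ * c) = 0 := by
  classical
  have hp : p.Prime := Fact.out
  have : CharP κ p :=
    charP_of_injective_algebraMap (algebraMap (ZMod p) κ).injective p
  have : Module.Finite (ZMod p) k := Module.Finite.of_finite
  have hint : IsIntegral (ZMod p) a := Algebra.IsIntegral.isIntegral a
  set q₀ := minpoly (ZMod p) a with hq₀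
  have hK₀ : Module.finrank (ZMod p) (IntermediateField.adjoin (ZMod p) {a}) = q₀.natDegree :=
    IntermediateField.adjoin.finrank hint
  set c : Module.Basis (Fin (Module.finrank (IntermediateField.adjoin (ZMod p) {a}) k))
      (IntermediateField.adjoin (ZMod p) {a}) k := Module.finBasis _ k with hc
  -- the root set
  have hP0 : frobPoly p (κ := κ) q₀ ≠ 0 := frobPoly_ne_zero p (minpoly.monic hint)
  have hRcard : (frobPoly p (κ := κ) q₀).roots.toFinset.card ≤ p ^ q₀.natDegree :=
    (Multiset.toFinset_card_le _).trans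
      ((card_roots' _).trans (frobPoly_natDegree_le p q₀))
  -- values of semilinear maps are roots
  have hroot : ∀ (h : k →ₗ[ZMod p] κ), (∀ c, h (a * c) = h c ^ p) →
      ∀ y, h y ∈ (frobPoly p (κ := κ) q₀).roots.toFinset := by
    intro h hh y
    rw [Multiset.mem_toFinset, mem_roots hP0, IsRoot.def, ← map_aeval_mul hh, hq₀, minpoly.aeval,
      zero_mul, map_zero]
  -- the maps `g b = b.1 • h₁ + b.2 • h₂`
  set g : k × k → (k →ₗ[ZMod p] κ) := fun b =>
    h₁.comp (LinearMap.mulLeft (ZMod p) b.1) + h₂.comp (LinearMap.mulLeft (ZMod p) b.2) with hg_def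
  have hg_apply : ∀ b y, g b y = h₁ (b.1 * y) + h₂ (b.2 * y) := fun b y => rfl
  have hg : ∀ b y, g b (a * y) = g b y ^ p := by
    intro b y
    rw [hg_apply, hg_apply, mul_left_comm, hh₁, mul_left_comm b.2, hh₂, add_pow_char]
  -- determination by the values on the basis
  have hdet : ∀ (h : k →ₗ[ZMod p] κ), (∀ c, h (a * c) = h c ^ p) → (∀ j, h (c j) = 0) →
      ∀ y, h y = 0 := by
    intro h hh hj y
    rw [← c.sum_repr y, map_sum]
    refine Finset.sum_eq_zero fun j _ => ?_
    obtain ⟨q, hq⟩ : ∃ q : (ZMod p)[X], aeval a q =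
        ((c.repr y j : IntermediateField.adjoin (ZMod p) {a}) : k) := by
      have hmem : ((c.repr y j : IntermediateField.adjoin (ZMod p) {a}) : k) ∈
          Algebra.adjoin (ZMod p) {a} := by
        have h1 := IntermediateField.adjoin_simple_toSubalgebra_of_isAlgebraic hint.isAlgebraic
        have h2 : ((c.repr y j : IntermediateField.adjoin (ZMod p) {a}) : k) ∈
            (IntermediateField.adjoin (ZMod p) {a}).toSubalgebra := (c.repr y j).2
        rwa [h1] at h2
      rw [Algebra.adjoin_singleton_eq_range_aeval] at hmem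
      exact hmem
    have hsm : (c.repr y j) • c j =
        ((c.repr y j : IntermediateField.adjoin (ZMod p) {a}) : k) * c j := rfl
    rw [hsm, ← hq, map_aeval_mul hh, hj, frobPoly_eval_zero]
  -- pigeonhole
  have hcard : Fintype.card (Fin (Module.finrank (IntermediateField.adjoin (ZMod p) {a}) k) →
      (frobPoly p (κ := κ) q₀).roots.toFinset) < Fintype.card (k × k) := by
    rw [Fintype.card_fun, Fintype.card_fin, Fintype.card_coe, Fintype.card_prod]
    have h1 : (frobPoly p (κ := κ) q₀).roots.toFinset.card ^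
        (Module.finrank (IntermediateField.adjoin (ZMod p) {a}) k) ≤ Fintype.card k := by
      calc (frobPoly p (κ := κ) q₀).roots.toFinset.card ^
            (Module.finrank (IntermediateField.adjoin (ZMod p) {a}) k)
          ≤ (p ^ q₀.natDegree) ^ (Module.finrank (IntermediateField.adjoin (ZMod p) {a}) k) :=
            Nat.pow_le_pow_left hRcard _
        _ = p ^ (q₀.natDegree * Module.finrank (IntermediateField.adjoin (ZMod p) {a}) k) :=
            (pow_mul p _ _).symm
        _ = Fintype.card k := by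
            rw [Module.card_eq_pow_finrank (K := ZMod p) (V := k), ZMod.card,
              ← Module.finrank_mul_finrank (ZMod p) (IntermediateField.adjoin (ZMod p) {a}) k,
              hK₀]
    have h2 : 1 < Fintype.card k := Fintype.one_lt_card
    nlinarith
  obtain ⟨b, b', hne, heq⟩ := Fintype.exists_ne_map_eq_of_card_lt
    (fun (b : k × k) (j : Fin (Module.finrank (IntermediateField.adjoin (ZMod p) {a}) k)) =>
      (⟨g b (c j), hroot (g b) (hg b) (c j)⟩ : (frobPoly p (κ := κ) q₀).roots.toFinset)) hcard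
  refine ⟨b.1 - b'.1, b.2 - b'.2, ?_, ?_⟩
  · by_contra hcon
    rw [not_or, not_not, not_not] at hcon
    exact hne (Prod.ext (sub_eq_zero.mp hcon.1) (sub_eq_zero.mp hcon.2))
  · have hsub : ∀ y, g (b - b') y = g b y - g b' y := by
      intro y
      rw [hg_apply, hg_apply, hg_apply, Prod.fst_sub, Prod.snd_sub, sub_mul, sub_mul, map_sub,
        map_sub]
      ring
    have hz : ∀ j, g (b - b') (c j) = 0 := by
      intro j
      have := congrArg Subtype.val (congrFun heq j)
      rw [hsub, sub_eq_zero]
      exact this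
    intro y
    have := hdet (g (b - b')) (hg _) hz y
    rwa [hg_apply] at this

end Fermat.Agent.TW.OrdCount
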