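import Mathlib

/-!
# PROGRAM G (S56), LOC-flat ORD case (OF-4): the KILL lemma

An abstract group lemma (Mathlib only).  `G` a group, `χ : G →* kˣ` a character, `V` a `k`-vector
space on which `G` acts through `χ`, `f : G → V` a cocycle (`f (g h) = f g + χ g • f h`), `H` a
subgroup on which `χ` is trivial, `t : G` with `χ t ≠ 1` whose commutators `g⁻¹ t⁻¹ g t` all lie in
`H`.  If `f` vanishes on the commutators `t σ t⁻¹ σ⁻¹` (`σ ∈ H`) then `f` is a coboundary.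

In the application `G = Gal(Ω/ℚ_p)`, `H = G_F` (`F/ℚ_p` abelian), `t` a norm-inertia element with
`ω(t) ≠ 1`, and `f` vanishes on `I ∩ G_F` (the Kummer characters are unramified).
-/

set_option autoImplicit false

namespace Fermat.Agent.TW.OrdCount.KillLemma

section Kill

variable {G : Type*} [Group G] {k : Type*} [Field k] {V : Type*} [AddCommGroup V] [Module k V]
  (χ : G →* kˣ) (f : G → V)

/-- A cocycle vanishes at `1`. -/
theorem cocycle_one (hf : ∀ g h, f (g * h) = f g + ((χ g : kˣ) : k) • f h) : f 1 = 0 := by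
  have h := hf 1 1
  rw [mul_one, map_one, Units.val_one, one_smul] at h
  have h2 : f 1 + 0 = f 1 + f 1 := by rw [add_zero]; exact h
  exact (add_left_cancel h2).symm

/-- The inverse formula `f g + χ g • f g⁻¹ = 0`. -/
theorem cocycle_inv (hf : ∀ g h, f (g * h) = f g + ((χ g : kˣ) : k) • f h) (g : G) :
    f g + ((χ g : kˣ) : k) • f g⁻¹ = 0 := by
  rw [← hf g g⁻¹, mul_inv_cancel, cocycle_one χ f hf]

/-- **Step 1**: `f (t σ t⁻¹ σ⁻¹) = (χ t - 1) • f σ` for `σ` in the kernel of `χ`. -/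
theorem cocycle_comm (hf : ∀ g h, f (g * h) = f g + ((χ g : kˣ) : k) • f h) (t σ : G)
    (hσ : χ σ = 1) : f (t * σ * t⁻¹ * σ⁻¹) = (((χ t : kˣ) : k) - 1) • f σ := by
  have hσ' : χ σ⁻¹ = 1 := by rw [map_inv, hσ, inv_one]
  have h1 : f σ⁻¹ = - f σ := by
    have := cocycle_inv χ f hf σ
    rw [hσ, Units.val_one, one_smul] at this
    exact (neg_eq_of_add_eq_zero_right this).symm
  have h2 := cocycle_inv χ f hf t
  have h3 : ((χ t : kˣ) : k) * ((χ t⁻¹ : kˣ) : k) = 1 := by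
    rw [← Units.val_mul, ← map_mul, mul_inv_cancel, map_one, Units.val_one]
  have e : t * σ * t⁻¹ * σ⁻¹ = t * (σ * (t⁻¹ * σ⁻¹)) := by group
  have h4 : ((χ t : kˣ) : k) • f t⁻¹ = - f t := (neg_eq_of_add_eq_zero_right h2).symm
  have h5 : ((χ t : kˣ) : k) • ((χ t⁻¹ : kˣ) : k) • -f σ = - f σ := by
    rw [← mul_smul, h3, one_smul]
  rw [e, hf t, hf σ, hf t⁻¹, hσ, Units.val_one, one_smul, h1, smul_add, smul_add, h5, h4,
    sub_smul, one_smul]
  abel

/-- **Step 1'**: a cocycle vanishing on the commutators `t σ t⁻¹ σ⁻¹` vanishes on `H`. -/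
theorem cocycle_eq_zero_of_comm (hf : ∀ g h, f (g * h) = f g + ((χ g : kˣ) : k) • f h)
    (H : Subgroup G) (hχH : ∀ σ ∈ H, χ σ = 1) (t : G) (ht : χ t ≠ 1)
    (hvan : ∀ σ ∈ H, f (t * σ * t⁻¹ * σ⁻¹) = 0) : ∀ σ ∈ H, f σ = 0 := by
  intro σ hσ
  have h1 := cocycle_comm χ f hf t σ (hχH σ hσ)
  rw [hvan σ hσ] at h1
  have h2 : ((χ t : kˣ) : k) - 1 ≠ 0 := by
    rw [sub_ne_zero]
    intro h
    exact ht (Units.ext (by rw [h, Units.val_one]))
  exact (smul_eq_zero.mp h1.symm).resolve_left h2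

/-- **Step 2**: a cocycle vanishing on `H` (where `χ` is trivial), with `t` such that `χ t ≠ 1` and
all commutators `g⁻¹ t⁻¹ g t ∈ H`, is a coboundary. -/
theorem cocycle_coboundary_of_vanish (hf : ∀ g h, f (g * h) = f g + ((χ g : kˣ) : k) • f h)
    (H : Subgroup G) (hχH : ∀ σ ∈ H, χ σ = 1) (t : G) (ht : χ t ≠ 1)
    (hcomm : ∀ g : G, g⁻¹ * t⁻¹ * g * t ∈ H)
    (hfH : ∀ σ ∈ H, f σ = 0) : ∃ n : V, ∀ g, f g = ((χ g : kˣ) : k) • n - n := by
  have h2 : ((χ t : kˣ) : k) - 1 ≠ 0 := by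
    rw [sub_ne_zero]
    intro h
    exact ht (Units.ext (by rw [h, Units.val_one]))
  set n₀ : V := (((χ t : kˣ) : k) - 1)⁻¹ • f t with hn₀
  refine ⟨n₀, fun g => ?_⟩
  -- the modified cocycle
  set f' : G → V := fun g => f g - (((χ g : kˣ) : k) • n₀ - n₀) with hf'
  have hf'c : ∀ g h, f' (g * h) = f' g + ((χ g : kˣ) : k) • f' h := by
    intro g h
    simp only [hf', hf g h, map_mul, Units.val_mul, mul_smul, smul_sub]
    abel
  have hf't : f' t = 0 := by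
    simp only [hf']
    have h7 : ((χ t : kˣ) : k) • n₀ - n₀ = (((χ t : kˣ) : k) - 1) • n₀ := by
      rw [sub_smul, one_smul]
    rw [h7, hn₀, ← mul_smul, mul_inv_cancel₀ h2, one_smul, sub_self]
  have hf'H : ∀ σ ∈ H, f' σ = 0 := by
    intro σ hσ
    simp only [hf']
    rw [hfH σ hσ, hχH σ hσ, Units.val_one, one_smul, sub_self, sub_zero]
  have e : g * t = t * (g * (g⁻¹ * t⁻¹ * g * t)) := by group
  have h3 : f' (g * t) = f' g := by rw [hf'c, hf't, smul_zero, add_zero]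
  have h4 : f' (t * (g * (g⁻¹ * t⁻¹ * g * t))) = ((χ t : kˣ) : k) • f' g := by
    rw [hf'c, hf't, zero_add, hf'c, hf'H _ (hcomm g), smul_zero, add_zero]
  rw [e, h4] at h3
  have h5 : (((χ t : kˣ) : k) - 1) • f' g = 0 := by rw [sub_smul, one_smul, h3, sub_self]
  have h6 : f' g = 0 := (smul_eq_zero.mp h5).resolve_left h2
  exact sub_eq_zero.mp h6

/-- **KILL**: the two steps together. -/
theorem cocycle_coboundary_of_comm (hf : ∀ g h, f (g * h) = f g + ((χ g : kˣ) : k) • f h)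
    (H : Subgroup G) (hχH : ∀ σ ∈ H, χ σ = 1) (t : G) (ht : χ t ≠ 1)
    (hcomm : ∀ g : G, g⁻¹ * t⁻¹ * g * t ∈ H)
    (hvan : ∀ σ ∈ H, f (t * σ * t⁻¹ * σ⁻¹) = 0) :
    ∃ n : V, ∀ g, f g = ((χ g : kˣ) : k) • n - n :=
  cocycle_coboundary_of_vanish χ f hf H hχH t ht hcomm
    (cocycle_eq_zero_of_comm χ f hf H hχH t ht hvan)

end Kill

end Fermat.Agent.TW.OrdCount.KillLemma
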