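import Fermat.Agent.TW.OrdCount.Radical
import Fermat.Agent.TW.OrdCount.FrobSemilinear
import Fermat.Agent.TW.OrdCount.Kill

/-!
# TW / OrdCount (OF-4): the ordinary count (finding #1565, B.4), abstract form

`D : OrdData p F Ω` (norm language, `F₁ = Ω^H`, `e(F₁) = p - 1`), `k` a finite field of
characteristic `p`, `χ : Gal(Ω/F) → kˣ` a character trivial on `H` and nontrivial on some
norm-inertia element `t`, all commutators of `Gal(Ω/F)` lying in `H` (`F₁/F` abelian),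
`lam0 : k →+ ZMod p` a nonzero functional.

A `χ`-cocycle `f : Gal(Ω/F) → k` is *ord-allowed* (`IsOrdAllowed`) if for every `c : k` the
character `σ ↦ lam0 (c * f σ)` of `H` has a Kummer radical, and the `p`-th power of every such
radical lies in `(1 + p O_{F₁}) F₁^{×p}` (norm form: `∃ c0 ∈ F₁ˣ, ‖β^p / c0^p - 1‖ ≤ ‖p‖`).

* `ord_count` : any two ord-allowed cocycles are `k`-linearly dependent modulo coboundaries
  (referee's route, ruling R13: leading coefficients + Frobenius semilinearity give a combination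
  whose Kummer characters are unramified; the commutator trick `KillLemma` finishes).
-/

set_option autoImplicit false
set_option linter.unusedSectionVars false

open Fermat.Agent.TW.KumEigen

namespace Fermat.Agent.TW.OrdCount

variable {p : ℕ} [hp : Fact p.Prime] {F Ω : Type*} [Field F] [NormedField Ω] [Algebra F Ω]
  (D : OrdData p F Ω) {k : Type*} [Field k]

/-- The character of `H` attached to a cocycle `f`, the functional `lam0` and the scalar `c`. -/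
def thetaOf (lam0 : k →+ ZMod p) (f : (Ω ≃ₐ[F] Ω) → k) (c : k) : (Ω ≃ₐ[F] Ω) → ZMod p :=
  fun σ => lam0 (c * f σ)

/-- `f` is a `1`-cocycle for the character `χ`. -/
def IsCocycleFor (χ : (Ω ≃ₐ[F] Ω) →* kˣ) (f : (Ω ≃ₐ[F] Ω) → k) : Prop :=
  ∀ σ τ, f (σ * τ) = f σ + ((χ σ : kˣ) : k) * f τ

/-- **Ord-allowed cocycles** (see the module docstring). -/
structure IsOrdAllowed (χ : (Ω ≃ₐ[F] Ω) →* kˣ) (lam0 : k →+ ZMod p)
    (f : (Ω ≃ₐ[F] Ω) → k) : Prop where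
  cocycle : IsCocycleFor χ f
  exists_radical : ∀ c : k, ∃ β : Ω, IsRadFn D (thetaOf lam0 f c) β
  allowed : ∀ (c : k) (β : Ω), IsRadFn D (thetaOf lam0 f c) β →
    ∃ c0 ∈ D.K, c0 ≠ 0 ∧ ‖β ^ p / c0 ^ p - 1‖ ≤ ‖(p : Ω)‖

variable {D}

theorem IsCocycleFor.map_one {χ : (Ω ≃ₐ[F] Ω) →* kˣ} {f : (Ω ≃ₐ[F] Ω) → k}
    (hf : IsCocycleFor χ f) : f 1 = 0 := by
  have h := hf 1 1
  rw [mul_one, _root_.map_one, Units.val_one, one_mul] at h
  exact left_eq_add.mp h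

/-- `f (g⁻¹ σ g) = χ(g)⁻¹ f σ` for `σ` in the kernel of `χ`. -/
theorem IsCocycleFor.conj {χ : (Ω ≃ₐ[F] Ω) →* kˣ} {f : (Ω ≃ₐ[F] Ω) → k}
    (hf : IsCocycleFor χ f) (g : Ω ≃ₐ[F] Ω) {σ : Ω ≃ₐ[F] Ω} (hσ : χ σ = 1) :
    f (g⁻¹ * σ * g) = (((χ g)⁻¹ : kˣ) : k) * f σ := by
  have h1 : f (g⁻¹ * g) = f g⁻¹ + ((χ g⁻¹ : kˣ) : k) * f g := hf g⁻¹ g
  rw [inv_mul_cancel, hf.map_one] at h1
  have h2 : f (g⁻¹ * σ * g) = f g⁻¹ + ((χ g⁻¹ : kˣ) : k) * (f σ + ((χ σ : kˣ) : k) * f g) := by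
    rw [mul_assoc, hf g⁻¹ (σ * g), hf σ g]
  rw [h2, hσ, Units.val_one, one_mul, map_inv, mul_add]
  rw [map_inv] at h1
  linear_combination -h1

theorem thetaOf_add (lam0 : k →+ ZMod p) (f : (Ω ≃ₐ[F] Ω) → k) (c c' : k)
    (σ : Ω ≃ₐ[F] Ω) :
    thetaOf lam0 f (c + c') σ = thetaOf lam0 f c σ + thetaOf lam0 f c' σ := by
  unfold thetaOf
  rw [add_mul, map_add]

theorem natCast_mul_thetaOf (lam0 : k →+ ZMod p) (f : (Ω ≃ₐ[F] Ω) → k) (c : k) (n : ℕ)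
    (σ : Ω ≃ₐ[F] Ω) :
    (n : ZMod p) * thetaOf lam0 f c σ = thetaOf lam0 f ((n : k) * c) σ := by
  unfold thetaOf
  rw [← nsmul_eq_mul, ← map_nsmul, nsmul_eq_mul, mul_assoc]

/-- conjugating the character of `c • f` by `g` gives the character of `(n χ(g)⁻¹ c) • f` -/
theorem thetaOf_conj {χ : (Ω ≃ₐ[F] Ω) →* kˣ} (hχH : ∀ σ ∈ D.H, χ σ = 1) (lam0 : k →+ ZMod p)
    {f : (Ω ≃ₐ[F] Ω) → k} (hf : IsCocycleFor χ f) (g : Ω ≃ₐ[F] Ω) (n : ℕ) (c : k)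
    {σ : Ω ≃ₐ[F] Ω} (hσ : σ ∈ D.H) :
    (n : ZMod p) * thetaOf lam0 f c (g⁻¹ * σ * g) =
      thetaOf lam0 f ((n : k) * (((χ g)⁻¹ : kˣ) : k) * c) σ := by
  rw [natCast_mul_thetaOf]
  unfold thetaOf
  rw [hf.conj g (hχH σ hσ)]
  congr 1
  ring

variable [IsUltrametricDist Ω]

/-- The leading-coefficient map `c ↦ lead (radical of lam0 ∘ (c • f)|H)` of an ord-allowed
cocycle: additive and Frobenius-semilinear. -/
theorem IsOrdAllowed.exists_leadHom {χ : (Ω ≃ₐ[F] Ω) →* kˣ} (hχH : ∀ σ ∈ D.H, χ σ = 1)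
    {lam0 : k →+ ZMod p} {f : (Ω ≃ₐ[F] Ω) → k} (hf : IsOrdAllowed D χ lam0 f) :
    ∃ h : k →+ Res Ω, (∀ c, LeadIs D (thetaOf lam0 f c) (h c)) ∧
      ∀ c, h ((D.gφ : k) * (((χ D.φ)⁻¹ : kˣ) : k) * c) = h c ^ p := by
  have hex : ∀ c : k, ∃ x : Res Ω, LeadIs D (thetaOf lam0 f c) x := by
    intro c
    obtain ⟨β, hβ⟩ := hf.exists_radical c
    obtain ⟨c0, hc0K, hc0, hn⟩ := hf.allowed c β hβ
    exact ⟨_, β, c0, hβ, hc0K, hc0, hn, rfl⟩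
  choose h0 hh0 using hex
  have hadd : ∀ c c', h0 (c + c') = h0 c + h0 c' := by
    intro c c'
    have h1 := (hh0 c).add (hh0 c')
    have h2 : LeadIs D (thetaOf lam0 f (c + c')) (h0 c + h0 c') :=
      h1.congr (fun σ _ => (thetaOf_add lam0 f c c' σ).symm)
    exact (hh0 (c + c')).unique h2
  refine ⟨AddMonoidHom.mk' h0 hadd, hh0, fun c => ?_⟩
  change h0 _ = h0 c ^ p
  have h1 := (hh0 c).frob
  have h2 : LeadIs D (thetaOf lam0 f ((D.gφ : k) * (((χ D.φ)⁻¹ : kˣ) : k) * c)) (h0 c ^ p) :=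
    h1.congr (fun σ hσ => thetaOf_conj hχH lam0 hf.cocycle D.φ D.gφ c hσ)
  exact (hh0 _).unique h2

/-- **The ordinary count** (#1565 B.4 / ruling R13, abstract form): two ord-allowed `χ`-cocycles
are `k`-linearly dependent modulo coboundaries. -/
theorem ord_count [Fintype k] [Algebra (ZMod p) k] {χ : (Ω ≃ₐ[F] Ω) →* kˣ}
    (hχH : ∀ σ ∈ D.H, χ σ = 1) (hcomm : ∀ g t : Ω ≃ₐ[F] Ω, g * t * g⁻¹ * t⁻¹ ∈ D.H)
    {t : Ω ≃ₐ[F] Ω} (htI : OrdData.IsInert t) (hχt : χ t ≠ 1)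
    {lam0 : k →+ ZMod p} (hlam0 : lam0 ≠ 0) {f₁ f₂ : (Ω ≃ₐ[F] Ω) → k}
    (hf₁ : IsOrdAllowed D χ lam0 f₁) (hf₂ : IsOrdAllowed D χ lam0 f₂) :
    ∃ b₁ b₂ : k, (b₁ ≠ 0 ∨ b₂ ≠ 0) ∧
      ∃ n : k, ∀ g, b₁ * f₁ g + b₂ * f₂ g = (((χ g : kˣ) : k) - 1) * n := by
  obtain ⟨h₁, hl₁, hs₁⟩ := hf₁.exists_leadHom hχH
  obtain ⟨h₂, hl₂, hs₂⟩ := hf₂.exists_leadHom hχH
  have : CharP (Res Ω) p := charP_res p D.norm_p_lt
  let _ : Algebra (ZMod p) (Res Ω) := ZMod.algebra _ p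
  obtain ⟨b₁, b₂, hb, hsum⟩ := exists_mul_add_mul_eq_zero p
    ((D.gφ : k) * (((χ D.φ)⁻¹ : kˣ) : k)) (h₁.toZModLinearMap p) (h₂.toZModLinearMap p)
    hs₁ hs₂
  refine ⟨b₁, b₂, hb, ?_⟩
  -- the combination `f` and its cocycle property
  obtain ⟨f, hfdef⟩ : ∃ f : (Ω ≃ₐ[F] Ω) → k, f = fun g => b₁ * f₁ g + b₂ * f₂ g := ⟨_, rfl⟩
  have hfc : ∀ g h, f (g * h) = f g + ((χ g : kˣ) : k) • f h := by
    intro g h
    rw [hfdef, smul_eq_mul]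
    simp only
    rw [hf₁.cocycle g h, hf₂.cocycle g h]
    ring
  -- the character of `c • f` has leading coefficient `0`, hence is unramified
  have key : ∀ σ ∈ D.H, OrdData.IsInert σ → f σ = 0 := by
    intro σ hσ hσI
    have hθ : ∀ c : k, lam0 (c * f σ) = 0 := by
      intro c
      have h0 : LeadIs D
          (fun σ => thetaOf lam0 f₁ (b₁ * c) σ + thetaOf lam0 f₂ (b₂ * c) σ) 0 := by
        have h1 := (hl₁ (b₁ * c)).add (hl₂ (b₂ * c))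
        have h2 : h₁ (b₁ * c) + h₂ (b₂ * c) = 0 := hsum c
        rwa [h2] at h1
      have h3 := h0.unram hσ hσI
      simp only [thetaOf] at h3
      rw [← map_add] at h3
      have h4 : b₁ * c * f₁ σ + b₂ * c * f₂ σ = c * f σ := by rw [hfdef]; ring
      rwa [h4] at h3
    by_contra hne
    apply hlam0
    ext z
    have h1 := hθ (z * (f σ)⁻¹)
    rw [mul_assoc, inv_mul_cancel₀ hne, mul_one] at h1
    rw [h1, AddMonoidHom.zero_apply]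
  -- kill
  have hvan : ∀ σ ∈ D.H, f (t * σ * t⁻¹ * σ⁻¹) = 0 := by
    intro σ hσ
    refine key _ ?_ (OrdData.IsInert.commutator D htI σ)
    have h1 : t * σ * t⁻¹ ∈ D.H := D.normal.conj_mem σ hσ t
    exact D.H.mul_mem h1 (D.H.inv_mem hσ)
  have hcomm' : ∀ g : Ω ≃ₐ[F] Ω, g⁻¹ * t⁻¹ * g * t ∈ D.H := by
    intro g
    have := hcomm g⁻¹ t⁻¹
    rwa [inv_inv, inv_inv] at this
  obtain ⟨n, hn⟩ := KillLemma.cocycle_coboundary_of_comm χ f hfc D.H hχH t hχt hcomm' hvan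
  refine ⟨n, fun g => ?_⟩
  have h1 := hn g
  rw [hfdef, smul_eq_mul] at h1
  simp only at h1
  rw [h1]
  ring

end Fermat.Agent.TW.OrdCount
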