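import Mathlib

/-!
# TW / OrdCount: the residue ring of an ultrametric normed field (norm language)

`Ω` an ultrametric normed field.  `unitBall Ω = {‖x‖ ≤ 1}` (a subring), `maxIdeal Ω = {‖x‖ < 1}`
(a prime ideal of it), `Res Ω` the quotient (a domain), `resOf : Ω → Res Ω` the reduction map
(junk value `0` outside the unit ball) and the *leading coefficient* of a unit `u` with
`‖u - 1‖ ≤ ‖p‖`: `lead p u = resOf ((u - 1) / p)`.
-/

set_option autoImplicit false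
set_option linter.unusedSectionVars false

namespace Fermat.Agent.TW.OrdCount

variable (Ω : Type*) [NormedField Ω] [IsUltrametricDist Ω]

/-- The closed unit ball of an ultrametric normed field, as a subring. -/
def unitBall : Subring Ω where
  carrier := {x | ‖x‖ ≤ 1}
  mul_mem' {x y} hx hy := by
    change ‖x * y‖ ≤ 1
    rw [norm_mul]
    exact mul_le_one₀ hx (norm_nonneg _) hy
  one_mem' := by
    change ‖(1 : Ω)‖ ≤ 1
    rw [norm_one]
  add_mem' {x y} hx hy := (IsUltrametricDist.norm_add_le_max x y).trans (max_le hx hy)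
  zero_mem' := by
    change ‖(0 : Ω)‖ ≤ 1
    rw [norm_zero]
    exact zero_le_one
  neg_mem' {x} hx := by
    change ‖-x‖ ≤ 1
    rw [norm_neg]
    exact hx

variable {Ω} in
theorem mem_unitBall {x : Ω} : x ∈ unitBall Ω ↔ ‖x‖ ≤ 1 := Iff.rfl

/-- The open unit ball, as an ideal of the closed unit ball. -/
def maxIdeal : Ideal (unitBall Ω) where
  carrier := {x | ‖(x : Ω)‖ < 1}
  add_mem' {x y} hx hy :=
    (IsUltrametricDist.norm_add_le_max (x : Ω) (y : Ω)).trans_lt (max_lt hx hy)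
  zero_mem' := by
    change ‖((0 : unitBall Ω) : Ω)‖ < 1
    rw [ZeroMemClass.coe_zero, norm_zero]
    exact zero_lt_one
  smul_mem' c x hx := by
    change ‖((c * x : unitBall Ω) : Ω)‖ < 1
    rw [Subring.coe_mul, norm_mul]
    exact mul_lt_one_of_nonneg_of_lt_one_right c.2 (norm_nonneg _) hx

variable {Ω} in
theorem mem_maxIdeal {x : unitBall Ω} : x ∈ maxIdeal Ω ↔ ‖(x : Ω)‖ < 1 := Iff.rfl

instance maxIdeal_isPrime : (maxIdeal Ω).IsPrime where
  ne_top' := by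
    intro h
    have h1 : (1 : unitBall Ω) ∈ maxIdeal Ω := by rw [h]; trivial
    rw [mem_maxIdeal, OneMemClass.coe_one, norm_one] at h1
    exact lt_irrefl _ h1
  mem_or_mem' := by
    intro x y hxy
    rw [mem_maxIdeal, Subring.coe_mul, norm_mul] at hxy
    by_contra hno
    rw [not_or, mem_maxIdeal, mem_maxIdeal, not_lt, not_lt] at hno
    have := one_le_mul_of_one_le_of_one_le hno.1 hno.2
    exact absurd hxy (not_lt.mpr this)

/-- The residue ring of `Ω`. -/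
abbrev Res : Type _ := unitBall Ω ⧸ maxIdeal Ω

variable {Ω}

/-- Reduction modulo the open unit ball (junk value `0` outside the closed unit ball). -/
noncomputable def resOf (x : Ω) : Res Ω :=
  open Classical in if h : ‖x‖ ≤ 1 then Ideal.Quotient.mk (maxIdeal Ω) ⟨x, h⟩ else 0

theorem resOf_of_le {x : Ω} (h : ‖x‖ ≤ 1) : resOf x = Ideal.Quotient.mk (maxIdeal Ω) ⟨x, h⟩ := by
  unfold resOf
  rw [dif_pos h]

theorem resOf_eq_zero_iff {x : Ω} (h : ‖x‖ ≤ 1) : resOf x = 0 ↔ ‖x‖ < 1 := by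
  rw [resOf_of_le h, Ideal.Quotient.eq_zero_iff_mem, mem_maxIdeal]

theorem resOf_add {x y : Ω} (hx : ‖x‖ ≤ 1) (hy : ‖y‖ ≤ 1) :
    resOf (x + y) = resOf x + resOf y := by
  have hxy : ‖x + y‖ ≤ 1 := (IsUltrametricDist.norm_add_le_max x y).trans (max_le hx hy)
  rw [resOf_of_le hx, resOf_of_le hy, resOf_of_le hxy, ← map_add]
  rfl

theorem resOf_mul {x y : Ω} (hx : ‖x‖ ≤ 1) (hy : ‖y‖ ≤ 1) :
    resOf (x * y) = resOf x * resOf y := by
  have hxy : ‖x * y‖ ≤ 1 := by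
    rw [norm_mul]
    exact mul_le_one₀ hx (norm_nonneg _) hy
  rw [resOf_of_le hx, resOf_of_le hy, resOf_of_le hxy, ← map_mul]
  rfl

theorem resOf_one : resOf (1 : Ω) = 1 := by
  have h : ‖(1 : Ω)‖ ≤ 1 := by rw [norm_one]
  rw [resOf_of_le h, ← map_one (Ideal.Quotient.mk (maxIdeal Ω))]
  rfl

theorem resOf_zero : resOf (0 : Ω) = 0 := by
  have h : ‖(0 : Ω)‖ ≤ 1 := by rw [norm_zero]; exact zero_le_one
  rw [resOf_eq_zero_iff h, norm_zero]
  exact zero_lt_one

theorem resOf_pow {x : Ω} (hx : ‖x‖ ≤ 1) (n : ℕ) : resOf (x ^ n) = resOf x ^ n := by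
  induction n with
  | zero => rw [pow_zero, pow_zero, resOf_one]
  | succ n ih =>
    have hxn : ‖x ^ n‖ ≤ 1 := by
      rw [norm_pow]
      exact pow_le_one₀ (norm_nonneg _) hx
    rw [pow_succ, pow_succ, resOf_mul hxn hx, ih]

/-- Elements at distance `< 1` have the same reduction. -/
theorem resOf_eq_of_norm_sub_lt {x y : Ω} (hy : ‖y‖ ≤ 1) (h : ‖x - y‖ < 1) :
    resOf x = resOf y := by
  have hxy : ‖x - y‖ ≤ 1 := h.le
  have h1 : x = (x - y) + y := by ring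
  have h2 : resOf (x - y) = 0 := (resOf_eq_zero_iff hxy).mpr h
  rw [h1, resOf_add hxy hy, h2, zero_add]

/-- The residue ring has characteristic `p` as soon as `‖p‖ < 1`. -/
theorem charP_res (p : ℕ) [hp : Fact p.Prime] (hp1 : ‖(p : Ω)‖ < 1) : CharP (Res Ω) p := by
  have h0 : ((p : ℕ) : Res Ω) = 0 := by
    have h1 : ((p : unitBall Ω) : Ω) = (p : Ω) := by simp
    have h2 : (p : unitBall Ω) ∈ maxIdeal Ω := by
      rw [mem_maxIdeal, h1]
      exact hp1
    have h3 := (Ideal.Quotient.eq_zero_iff_mem (I := maxIdeal Ω)).mpr h2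
    rwa [map_natCast] at h3
  exact (CharP.charP_iff_prime_eq_zero hp.out).mpr h0

/-- The **leading coefficient** at level `‖p‖` of a unit `u` with `‖u - 1‖ ≤ ‖p‖`. -/
noncomputable def lead (p : ℕ) (u : Ω) : Res Ω := resOf ((u - 1) / (p : Ω))

section Lead

variable {p : ℕ} (hp0 : 0 < ‖(p : Ω)‖) (hp1 : ‖(p : Ω)‖ < 1)

include hp0 in
theorem norm_div_p_le {x : Ω} (h : ‖x‖ ≤ ‖(p : Ω)‖) : ‖x / (p : Ω)‖ ≤ 1 := by
  rw [norm_div]
  exact div_le_one_of_le₀ h hp0.le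

include hp0 in
theorem lead_eq_zero_iff {u : Ω} (hu : ‖u - 1‖ ≤ ‖(p : Ω)‖) :
    lead p u = 0 ↔ ‖u - 1‖ < ‖(p : Ω)‖ := by
  unfold lead
  rw [resOf_eq_zero_iff (norm_div_p_le hp0 hu), norm_div, div_lt_one hp0]

include hp0 hp1 in
theorem norm_mul_sub_one_le {u v : Ω} (hu : ‖u - 1‖ ≤ ‖(p : Ω)‖) (hv : ‖v - 1‖ ≤ ‖(p : Ω)‖) :
    ‖u * v - 1‖ ≤ ‖(p : Ω)‖ := by
  have h : u * v - 1 = (u - 1) * (v - 1) + ((u - 1) + (v - 1)) := by ring
  rw [h]
  refine (IsUltrametricDist.norm_add_le_max _ _).trans (max_le ?_ ?_)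
  · rw [norm_mul]
    calc ‖u - 1‖ * ‖v - 1‖ ≤ ‖(p : Ω)‖ * 1 :=
          mul_le_mul hu (hv.trans hp1.le) (norm_nonneg _) hp0.le
      _ = ‖(p : Ω)‖ := mul_one _
  · exact (IsUltrametricDist.norm_add_le_max _ _).trans (max_le hu hv)

include hp0 hp1 in
/-- The leading coefficient is additive. -/
theorem lead_mul {u v : Ω} (hu : ‖u - 1‖ ≤ ‖(p : Ω)‖) (hv : ‖v - 1‖ ≤ ‖(p : Ω)‖) :
    lead p (u * v) = lead p u + lead p v := by
  have hpne : (p : Ω) ≠ 0 := fun h => by rw [h, norm_zero] at hp0; exact lt_irrefl _ hp0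
  have ha := norm_div_p_le hp0 hu
  have hb := norm_div_p_le hp0 hv
  set a := (u - 1) / (p : Ω) with hadef
  set b := (v - 1) / (p : Ω) with hbdef
  have hab : ‖a + b‖ ≤ 1 := (IsUltrametricDist.norm_add_le_max a b).trans (max_le ha hb)
  have h : (u * v - 1) / (p : Ω) = (p : Ω) * (a * b) + (a + b) := by
    rw [hadef, hbdef]
    field_simp
    ring
  have hsmall : ‖(p : Ω) * (a * b)‖ < 1 := by
    rw [norm_mul, norm_mul]
    calc ‖(p : Ω)‖ * (‖a‖ * ‖b‖) ≤ ‖(p : Ω)‖ * 1 :=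
          mul_le_mul_of_nonneg_left (mul_le_one₀ ha (norm_nonneg _) hb) hp0.le
      _ < 1 := by rw [mul_one]; exact hp1
  unfold lead
  rw [h, resOf_add hsmall.le hab, (resOf_eq_zero_iff hsmall.le).mpr hsmall, zero_add,
    resOf_add ha hb]

end Lead

end Fermat.Agent.TW.OrdCount
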