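import Fermat.Agent.TW.KumEigen.Levels
import Fermat.Agent.TW.OrdCount.Res

/-!
# TW / OrdCount (OF-4): the ordinary field data `K₁(f, p - 1) = ℚ_{p^f}(ζ_p)` in norm language

`Ω / F` a field extension, `Ω` an ultrametric normed field on which `Gal(Ω/F)` acts by isometries
(for S56: `F = ℚ_[p]`, `Ω = PadicAlgCl p`).  `OrdData p F Ω` packages a normal subgroup `H`
(the absolute Galois group of `F₁ = Ω^H = ℚ_{p^f}(ζ_p)`), a primitive `p`-th root of unity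
`ζp ∈ F₁` such that the value group of `F₁` is `‖ζp - 1‖^ℤ` (`e(F₁/ℚ_p) = p - 1`), and a
Frobenius lift `φ` (`φ x ≡ x ^ p` on the integers of `F₁`).  (Any finite normal `F₁/ℚ_p` with
`e = p - 1` containing `ζ_p` qualifies, e.g. `ℚ_p(ζ_{p m})`, `p ∤ m`.)

Local facts proved here (`‖p‖ = ‖ζp - 1‖^(p-1)`):

* `pow_level` : `d ∈ F₁`, `‖d ^ p - 1‖ ≤ ‖p‖ ⇒ ‖d ^ p - 1‖ ≤ ‖p‖ ‖ζp - 1‖` (`p ∤ p - 1`);
* `IsInert` : norm-inertia elements of `Gal(Ω/F)`; stable under products, inverses, conjugation.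

(The `τ`-eigenvalue analysis of the top piece `U^(p)/U^(p+1)` of the first version, commit
5d4c29d4, is replaced by the referee's commutator argument, ruling R13.)
-/

set_option autoImplicit false
set_option linter.unusedSectionVars false

open Fermat.Agent.TW.KumEigen

namespace Fermat.Agent.TW.OrdCount

/-- **Ordinary field data** (see the module docstring). -/
structure OrdData (p : ℕ) (F Ω : Type*) [Field F] [NormedField Ω] [Algebra F Ω] where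
  /-- the absolute Galois group of `F₁` -/
  H : Subgroup (Ω ≃ₐ[F] Ω)
  normal : H.Normal
  /-- primitive `p`-th root of unity -/
  ζp : Ω
  /-- Frobenius lift -/
  φ : Ω ≃ₐ[F] Ω
  /-- `ω(φ)` -/
  gφ : ℕ
  isom : ∀ (g : Ω ≃ₐ[F] Ω) (x : Ω), ‖g x‖ = ‖x‖
  norm_p_pos : 0 < ‖(p : Ω)‖
  norm_p_lt : ‖(p : Ω)‖ < 1
  hζp : IsPrimitiveRoot ζp p
  ζp_mem : ζp ∈ fixedSubfield H
  /-- the value group of `F₁` is generated by `‖ζp - 1‖` -/
  disc : ∀ x ∈ fixedSubfield H, x ≠ 0 → ∃ n : ℤ, ‖x‖ = ‖ζp - 1‖ ^ n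
  φζp : φ ζp = ζp ^ gφ
  /-- `φ` induces the Frobenius on the residue field of `F₁` -/
  φ_frob : ∀ x ∈ fixedSubfield H, ‖x‖ ≤ 1 → ‖φ x - x ^ p‖ < 1
  /-- `p`-th roots exist in `Ω` -/
  exists_root : ∀ u : Ω, ∃ β : Ω, β ^ p = u

namespace OrdData

variable {p : ℕ} [hp : Fact p.Prime] {F Ω : Type*} [Field F] [NormedField Ω] [Algebra F Ω]
  (D : OrdData p F Ω)

/-- The field `F₁`. -/
def K : Subfield Ω := fixedSubfield D.H

/-- `‖ζp - 1‖`. -/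
noncomputable def ρ : ℝ := ‖D.ζp - 1‖

theorem map_mem_K (g : Ω ≃ₐ[F] Ω) {x : Ω} (hx : x ∈ D.K) : g x ∈ D.K :=
  haveI := D.normal
  map_mem_fixedSubfield g hx

theorem ζp_sub_one_mem : D.ζp - 1 ∈ D.K := D.K.sub_mem D.ζp_mem D.K.one_mem

theorem natCast_mem (n : ℕ) : (n : Ω) ∈ D.K := _root_.natCast_mem D.K n

variable [IsUltrametricDist Ω]

theorem ρ_pos : 0 < D.ρ := norm_zetap_sub_one_pos D.hζp D.norm_p_pos

theorem ρ_lt_one : D.ρ < 1 := norm_zetap_sub_one_lt D.hζp D.norm_p_lt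

theorem ρ_pow_pred : D.ρ ^ (p - 1) = ‖(p : Ω)‖ := norm_zetap_sub_one_pow D.hζp

theorem ρ_pow_p : D.ρ ^ p = ‖(p : Ω)‖ * D.ρ := by
  calc D.ρ ^ p = D.ρ ^ ((p - 1) + 1) := by rw [Nat.sub_add_cancel hp.out.pos]
    _ = ‖(p : Ω)‖ * D.ρ := by rw [pow_succ, D.ρ_pow_pred]

theorem ρ_pow_anti {m n : ℕ} (h : m ≤ n) : D.ρ ^ n ≤ D.ρ ^ m :=
  pow_le_pow_of_le_one D.ρ_pos.le D.ρ_lt_one.le h

theorem norm_p_le_ρ : ‖(p : Ω)‖ ≤ D.ρ := by
  rw [← D.ρ_pow_pred]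
  have h : 1 ≤ p - 1 := by have := hp.out.two_le; omega
  calc D.ρ ^ (p - 1) ≤ D.ρ ^ 1 := D.ρ_pow_anti h
    _ = D.ρ := pow_one _

include D in
theorem p_ne_zero : (p : Ω) ≠ 0 := fun h => by
  have := D.norm_p_pos
  rw [h, norm_zero] at this
  exact lt_irrefl _ this

/-- discreteness in the usable form -/
theorem disc' {x : Ω} (hx : x ∈ D.K) {m : ℕ} (h : ‖x‖ < D.ρ ^ m) :
    ‖x‖ ≤ D.ρ ^ (m + 1) := by
  rcases eq_or_ne x 0 with rfl | hx0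
  · rw [norm_zero]; exact pow_nonneg D.ρ_pos.le _
  obtain ⟨n, hn⟩ := D.disc x hx hx0
  change ‖x‖ = D.ρ ^ n at hn
  rw [hn] at h ⊢
  have h1 : (m : ℤ) < n := by
    by_contra hle
    rw [not_lt] at hle
    have : D.ρ ^ (m : ℤ) ≤ D.ρ ^ n := zpow_le_zpow_right_of_le_one₀ D.ρ_pos D.ρ_lt_one.le hle
    rw [zpow_natCast] at this
    exact absurd h (not_lt.mpr this)
  have h2 : ((m + 1 : ℕ) : ℤ) ≤ n := by push_cast; omega
  have := zpow_le_zpow_right_of_le_one₀ D.ρ_pos D.ρ_lt_one.le h2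
  rwa [zpow_natCast] at this

/-- elements of `F₁` of norm `< 1` have norm `≤ ‖ζp - 1‖` -/
theorem disc_one {x : Ω} (hx : x ∈ D.K) (h : ‖x‖ < 1) : ‖x‖ ≤ D.ρ := by
  have := D.disc' hx (m := 0) (by simpa using h)
  simpa using this

/-- elements of `F₁` of norm `< ‖p‖` have norm `≤ ‖p‖ ‖ζp - 1‖` -/
theorem disc_p {x : Ω} (hx : x ∈ D.K) (h : ‖x‖ < ‖(p : Ω)‖) : ‖x‖ ≤ ‖(p : Ω)‖ * D.ρ := by
  rw [← D.ρ_pow_pred] at h
  have := D.disc' hx h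
  rwa [pow_succ, D.ρ_pow_pred] at this

/-- **`p`-th powers have no leading coefficient at level `p - 1`** (`p ∤ p - 1`). -/
theorem pow_level {d : Ω} (hd : d ∈ D.K) (h : ‖d ^ p - 1‖ ≤ ‖(p : Ω)‖) :
    ‖d ^ p - 1‖ ≤ ‖(p : Ω)‖ * D.ρ := by
  have hp0 : p ≠ 0 := hp.out.ne_zero
  have hdp : ‖d ^ p‖ = 1 := norm_eq_one_of_sub_one_lt (h.trans_lt D.norm_p_lt)
  have hd1 : ‖d‖ = 1 := by
    rw [norm_pow] at hdp
    exact (pow_eq_one_iff_of_nonneg (norm_nonneg _) hp0).mp hdp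
  set y := d - 1 with hy
  have hyK : y ∈ D.K := D.K.sub_mem hd D.K.one_mem
  have hy1 : ‖y‖ ≤ 1 := by
    refine (norm_sub_le_max' _ _).trans (max_le hd1.le ?_)
    rw [norm_one]
  have hdy : d = 1 + y := by rw [hy]; ring
  have hmid : ‖d ^ p - 1 - y ^ p‖ ≤ ‖(p : Ω)‖ * ‖y‖ := by
    rw [hdy]
    exact TameData.norm_one_add_pow_sub hy1
  -- first `‖y‖ < 1`
  have hyp : ‖y ^ p‖ ≤ ‖(p : Ω)‖ := by
    have h1 : y ^ p = (d ^ p - 1) - (d ^ p - 1 - y ^ p) := by ring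
    rw [h1]
    refine (norm_sub_le_max' _ _).trans (max_le h (hmid.trans ?_))
    exact mul_le_of_le_one_right D.norm_p_pos.le hy1
  have hylt : ‖y‖ < 1 := by
    by_contra hge
    rw [not_lt] at hge
    have : 1 ≤ ‖y‖ ^ p := one_le_pow₀ hge
    rw [← norm_pow] at this
    exact absurd (this.trans hyp) (not_le.mpr D.norm_p_lt)
  have hyρ : ‖y‖ ≤ D.ρ := D.disc_one hyK hylt
  -- now both pieces are small
  have h2 : d ^ p - 1 = (d ^ p - 1 - y ^ p) + y ^ p := by ring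
  rw [h2]
  refine (IsUltrametricDist.norm_add_le_max _ _).trans (max_le ?_ ?_)
  · exact hmid.trans (mul_le_mul_of_nonneg_left hyρ D.norm_p_pos.le)
  · rw [norm_pow, ← D.ρ_pow_p]
    exact pow_le_pow_left₀ (norm_nonneg _) hyρ p

/-- **Norm-inertia**: `σ` acts trivially on the residue ring of `Ω`. -/
def IsInert (σ : Ω ≃ₐ[F] Ω) : Prop := ∀ x : Ω, ‖x‖ ≤ 1 → ‖σ x - x‖ < 1

include D in
theorem IsInert.mul {σ τ : Ω ≃ₐ[F] Ω} (hσ : IsInert σ) (hτ : IsInert τ) : IsInert (σ * τ) := by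
  intro x hx
  have h1 : (σ * τ) x - x = (σ (τ x) - τ x) + (τ x - x) := by
    rw [AlgEquiv.mul_apply]; ring
  rw [h1]
  refine (IsUltrametricDist.norm_add_le_max _ _).trans_lt (max_lt (hσ _ ?_) (hτ x hx))
  rw [D.isom]; exact hx

include D in
theorem IsInert.inv {σ : Ω ≃ₐ[F] Ω} (hσ : IsInert σ) : IsInert σ⁻¹ := by
  intro x hx
  have h1 : σ (σ⁻¹ x) = x := by
    rw [← AlgEquiv.mul_apply, mul_inv_cancel, AlgEquiv.one_apply]
  have h2 : ‖σ⁻¹ x‖ ≤ 1 := by rw [D.isom]; exact hx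
  have h3 := hσ (σ⁻¹ x) h2
  rw [h1, norm_sub_rev] at h3
  exact h3

include D in
theorem IsInert.conj {σ : Ω ≃ₐ[F] Ω} (hσ : IsInert σ) (g : Ω ≃ₐ[F] Ω) :
    IsInert (g * σ * g⁻¹) := by
  intro x hx
  have h2 : ‖g⁻¹ x‖ ≤ 1 := by rw [D.isom]; exact hx
  have h1 : (g * σ * g⁻¹) x - x = g (σ (g⁻¹ x) - g⁻¹ x) := by
    rw [map_sub, AlgEquiv.mul_apply, AlgEquiv.mul_apply, ← AlgEquiv.mul_apply g g⁻¹ x,
      mul_inv_cancel, AlgEquiv.one_apply]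
  rw [h1, D.isom]
  exact hσ _ h2

include D in
/-- the commutator of a norm-inertia element with anything is norm-inertia -/
theorem IsInert.commutator {t : Ω ≃ₐ[F] Ω} (ht : IsInert t) (σ : Ω ≃ₐ[F] Ω) :
    IsInert (t * σ * t⁻¹ * σ⁻¹) := by
  have h1 : t * σ * t⁻¹ * σ⁻¹ = t * (σ * t⁻¹ * σ⁻¹) := by group
  rw [h1]
  exact IsInert.mul D ht (IsInert.conj D (IsInert.inv D ht) σ)

end OrdData

end Fermat.Agent.TW.OrdCount
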