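import Fermat.Agent.TW.LocFlat.OrdContracts
import Fermat.Agent.TW.OrdCount.Count

/-!
# TW / OrdCount (OF-4): the ordinary count over `ℚ_p`, contract `OrdCountOut` (ruling R13)

`Ω = PadicAlgCl p`, `G_p = Gal(Ω/ℚ_p)`.  From an `IsOrdField p F` and a norm-Frobenius `φ` we build
the abstract `OrdData` (with `H = G_F`, `Ω^H = F`), and `ord_count` gives helper25's literal
`OrdCountOut p k`, given

* `ExistsRadicalOut p` : Kummer theory for LC characters of `G_F` (helper13's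
  `ExistsRadical.lean`, a wrapper of helper14's `DictKummer.exists_isKummerChar`);
* a norm-Frobenius `φ : G_p` (helper9's `UnrHom.exists_frobenius_lift` +
  `ShapeLocal.isNormFrobenius_iff`).
-/

set_option autoImplicit false
set_option linter.unusedSectionVars false
set_option linter.style.haveILetI false

namespace Fermat.Agent.TW.OrdCount

open Fermat.Agent.TW.LocFlat Fermat.Agent.TW.KumEigen Fermat.Agent.S55 Fermat.Agent.CFT
  IntermediateField

variable (p : ℕ) [hp : Fact p.Prime]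

local notation "Ωp" => PadicAlgCl p
local notation "Gp" => (PadicAlgCl p ≃ₐ[ℚ_[p]] PadicAlgCl p)

/-- **Contract (Kummer existence)**: an LC function `h : G_p → ZMod p` which is additive on `G_F`
(`F` finite over `ℚ_p`, `ζ_p ∈ F`) has a Kummer radical over `F`. -/
def ExistsRadicalOut : Prop :=
  ∀ (F : IntermediateField ℚ_[p] Ωp), FiniteDimensional ℚ_[p] F →
  ∀ (ζp : Ωp), IsPrimitiveRoot ζp p → ζp ∈ F →
  ∀ h : Gp → ZMod p,
    (∀ σ ∈ F.fixingSubgroup, ∀ τ ∈ F.fixingSubgroup, h (σ * τ) = h σ + h τ) →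
    (levelOf (localGaloisToGlobal p)).IsLC₁ h →
    ∃ β : Ωp, β ≠ 0 ∧ ∀ σ ∈ F.fixingSubgroup, σ β = ζp ^ (h σ).val * β

variable {p}

theorem norm_algEquiv_padicAlgCl (g : Gp) (x : Ωp) : ‖g x‖ = ‖x‖ := by
  rw [← coe_nnnorm, ← coe_nnnorm, nnnorm_padicAlgCl_algEquiv]

theorem norm_p_padicAlgCl : ‖(p : Ωp)‖ = (p : ℝ)⁻¹ := by
  rw [← map_natCast (algebraMap ℚ_[p] (PadicAlgCl p)), PadicAlgCl.norm_extends]
  exact Padic.norm_p

theorem norm_p_padicAlgCl_pos : 0 < ‖(p : Ωp)‖ := by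
  rw [norm_p_padicAlgCl]
  exact inv_pos.mpr (Nat.cast_pos.mpr hp.out.pos)

theorem norm_p_padicAlgCl_lt_one : ‖(p : Ωp)‖ < 1 := by
  rw [norm_p_padicAlgCl]
  exact inv_lt_one_of_one_lt₀ (by exact_mod_cast hp.out.one_lt)

/-- `Ω^{G_F} = F`. -/
theorem mem_fixedSubfield_fixingSubgroup_iff (F : IntermediateField ℚ_[p] Ωp) {x : Ωp} :
    x ∈ fixedSubfield F.fixingSubgroup ↔ x ∈ F := by
  constructor
  · intro hx
    have h1 : x ∈ IntermediateField.fixedField F.fixingSubgroup := fun σ => hx σ.1 σ.2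
    rwa [InfiniteGalois.fixedField_fixingSubgroup] at h1
  · intro hx σ hσ
    exact (IntermediateField.mem_fixingSubgroup_iff F σ).mp hσ x hx

/-- The abstract ordinary datum of an `IsOrdField` and a norm-Frobenius. -/
noncomputable def ordDataOf {F : IntermediateField ℚ_[p] Ωp} (hF : IsOrdField p F) {ζp : Ωp}
    (hζp : IsPrimitiveRoot ζp p) {φ : Gp} (hφ : ∀ y : Ωp, ‖y‖ ≤ 1 → ‖φ y - y ^ p‖ < 1) :
    OrdData p ℚ_[p] Ωp where
  H := F.fixingSubgroup
  normal := by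
    haveI := hF.normal
    haveI : IsGalois ℚ_[p] F := ⟨⟩
    exact (InfiniteGalois.normal_iff_isGalois F).mpr inferInstance
  ζp := ζp
  φ := φ
  gφ := Classical.choose (hζp.eq_pow_of_pow_eq_one
    (show (φ ζp) ^ p = 1 by rw [← map_pow, hζp.pow_eq_one, map_one]))
  isom := norm_algEquiv_padicAlgCl
  norm_p_pos := norm_p_padicAlgCl_pos
  norm_p_lt := norm_p_padicAlgCl_lt_one
  hζp := hζp
  ζp_mem := (mem_fixedSubfield_fixingSubgroup_iff F).mpr (hF.zeta_mem ζp hζp.pow_eq_one)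
  disc := fun x hx hx0 =>
    hF.val ζp hζp x ((mem_fixedSubfield_fixingSubgroup_iff F).mp hx) hx0
  φζp := (Classical.choose_spec (hζp.eq_pow_of_pow_eq_one
    (show (φ ζp) ^ p = 1 by rw [← map_pow, hζp.pow_eq_one, map_one]))).2.symm
  φ_frob := fun x _ hx1 => hφ x hx1
  exists_root := fun u => IsAlgClosed.exists_pow_nat_eq u hp.out.pos

/-- a nonzero additive functional on a field of characteristic `p` -/
theorem exists_addMonoidHom_ne_zero (k : Type) [Field k] [CharP k p] :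
    ∃ lam0 : k →+ ZMod p, lam0 ≠ 0 := by
  letI : Algebra (ZMod p) k := ZMod.algebra k p
  let b := Module.Free.chooseBasis (ZMod p) k
  haveI : Nonempty (Module.Free.ChooseBasisIndex (ZMod p) k) := b.index_nonempty
  let i : Module.Free.ChooseBasisIndex (ZMod p) k := Classical.arbitrary _
  refine ⟨(b.coord i).toAddMonoidHom, fun h0 => ?_⟩
  have h1 : (b.coord i).toAddMonoidHom (b i) = 1 := by
    simp [Module.Basis.coord_apply]
  rw [h0, AddMonoidHom.zero_apply] at h1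
  exact zero_ne_one h1

/-- **OF-4**: the contract `OrdCountOut`, given Kummer existence and a norm-Frobenius. -/
theorem ordCountOut_of (hR : ExistsRadicalOut p)
    (hFrob : ∃ φ : Gp, ∀ y : Ωp, ‖y‖ ≤ 1 → ‖φ y - y ^ p‖ < 1)
    (k : Type) [Field k] [Fintype k] [CharP k p] : OrdCountOut p k := by
  intro F hF ζp hζp χ hχF ht f₁ f₂ hc₁ hc₂ hLC₁ hLC₂ hA₁ hA₂
  obtain ⟨t, htI, hχt⟩ := ht
  obtain ⟨φ, hφ⟩ := hFrob
  letI : Algebra (ZMod p) k := ZMod.algebra k p
  obtain ⟨lam0, hlam0⟩ := exists_addMonoidHom_ne_zero (p := p) k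
  set D := ordDataOf hF hζp hφ with hD
  have hζF : ζp ∈ F := hF.zeta_mem ζp hζp.pow_eq_one
  have mk : ∀ f : Gp → k, (∀ g h, f (g * h) = f g + ((χ g : kˣ) : k) * f h) →
      (levelOf (localGaloisToGlobal p)).IsLC₁ f → AllowedAt p F ζp f →
      IsOrdAllowed D χ lam0 f := by
    intro f hc hLC hA
    refine ⟨hc, fun c => ?_, fun c β hβ => ?_⟩
    · have hadd : ∀ σ ∈ F.fixingSubgroup, ∀ τ ∈ F.fixingSubgroup,
          thetaOf lam0 f c (σ * τ) = thetaOf lam0 f c σ + thetaOf lam0 f c τ := by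
        intro σ hσ τ _
        simp only [thetaOf]
        rw [hc σ τ, hχF σ hσ, Units.val_one, one_mul, mul_add, map_add]
      obtain ⟨β, hβ0, hβ⟩ := hR F hF.fd ζp hζp hζF (thetaOf lam0 f c) hadd
        (hLC.comp (fun x => lam0 (c * x)))
      exact ⟨β, hβ0, hβ⟩
    · obtain ⟨c0, hc0F, hc0, hn⟩ := hA (lam0.comp (AddMonoidHom.mulLeft c)) β hβ.1 hβ.2
      exact ⟨c0, (mem_fixedSubfield_fixingSubgroup_iff F).mpr hc0F, hc0, hn⟩
  exact ord_count (D := D) hχF hF.comm htI hχt hlam0 (mk f₁ hc₁ hLC₁ hA₁) (mk f₂ hc₂ hLC₂ hA₂)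

end Fermat.Agent.TW.OrdCount
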