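import Fermat.Agent.TW.OrdCount.Data

/-!
# TW / OrdCount (OF-4): Kummer radicals over `F₁` and their leading coefficients

`D : OrdData p F Ω`, `G = Gal(Ω/F)`, `H = D.H = Gal(Ω/F₁)`.  For a function `θ : G → ZMod p`
(a character of `H` in the applications) a *radical* of `θ` is a nonzero `β : Ω` with
`σ β = ζp ^ (θ σ).val * β` for all `σ ∈ H` (`IsRadFn`).  `LeadIs θ x` says that `θ` has a radical
`β` whose `p`-th power lies in `(1 + p O_{F₁}) F₁^{×p}` with leading coefficient `x ∈ Res Ω`.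

* `LeadIs.unique`, `LeadIs.add` : the leading coefficient is well defined and additive in `θ`;
* `LeadIs.frob` : Frobenius semilinearity;
* `LeadIs.unram` : a `θ` with leading coefficient `0` vanishes on the norm-inertia elements of `H`
  (Krasner: `KumEigen.root_fixed_of_inertia`).
-/

set_option autoImplicit false
set_option linter.unusedSectionVars false

open Fermat.Agent.TW.KumEigen

namespace Fermat.Agent.TW.OrdCount

section ZModPow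

variable {Ω : Type*} [Monoid Ω] {p : ℕ} [hp : Fact p.Prime] {ζ : Ω}

theorem pow_mod_of_pow_eq_one (hζ : ζ ^ p = 1) (m : ℕ) : ζ ^ (m % p) = ζ ^ m := by
  conv_rhs => rw [← Nat.mod_add_div m p, pow_add, pow_mul, hζ, one_pow, mul_one]

theorem pow_val_add (hζ : ζ ^ p = 1) (a b : ZMod p) :
    ζ ^ (a + b).val = ζ ^ a.val * ζ ^ b.val := by
  rw [ZMod.val_add, pow_mod_of_pow_eq_one hζ, pow_add]

theorem pow_val_natCast_mul (hζ : ζ ^ p = 1) (n : ℕ) (a : ZMod p) :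
    ζ ^ ((n : ZMod p) * a).val = (ζ ^ n) ^ a.val := by
  rw [ZMod.val_mul, ZMod.val_natCast, pow_mod_of_pow_eq_one hζ, pow_mul,
    pow_mod_of_pow_eq_one hζ]

end ZModPow

variable {p : ℕ} [hp : Fact p.Prime] {F Ω : Type*} [Field F] [NormedField Ω] [Algebra F Ω]
  (D : OrdData p F Ω)

/-- `β` is a Kummer radical over `F₁ = Ω^H` of the function `θ` (only `θ|H` matters). -/
def IsRadFn (θ : (Ω ≃ₐ[F] Ω) → ZMod p) (β : Ω) : Prop :=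
  β ≠ 0 ∧ ∀ σ ∈ D.H, σ β = D.ζp ^ (θ σ).val * β

namespace IsRadFn

variable {D} {θ θ₁ θ₂ θ' : (Ω ≃ₐ[F] Ω) → ZMod p} {β β₁ β₂ β' : Ω}

theorem congr (h : ∀ σ ∈ D.H, θ σ = θ' σ) (hβ : IsRadFn D θ β) : IsRadFn D θ' β :=
  ⟨hβ.1, fun σ hσ => by rw [← h σ hσ]; exact hβ.2 σ hσ⟩

theorem mul (h₁ : IsRadFn D θ₁ β₁) (h₂ : IsRadFn D θ₂ β₂) :
    IsRadFn D (fun σ => θ₁ σ + θ₂ σ) (β₁ * β₂) := by
  refine ⟨mul_ne_zero h₁.1 h₂.1, fun σ hσ => ?_⟩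
  rw [map_mul, h₁.2 σ hσ, h₂.2 σ hσ, pow_val_add D.hζp.pow_eq_one]
  ring

theorem div_mem (h : IsRadFn D θ β) (h' : IsRadFn D θ β') : β' / β ∈ D.K := by
  intro σ hσ
  rw [map_div₀, h.2 σ hσ, h'.2 σ hσ]
  have h0 : D.ζp ^ (θ σ).val ≠ 0 := pow_ne_zero _ (D.hζp.ne_zero hp.out.ne_zero)
  have := h.1
  field_simp

theorem pow_mem (h : IsRadFn D θ β) : β ^ p ∈ D.K := by
  intro σ hσ
  rw [map_pow, h.2 σ hσ, mul_pow, ← pow_mul, mul_comm (θ σ).val p, pow_mul, D.hζp.pow_eq_one,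
    one_pow, one_mul]

theorem eq_zero_of_fixed (h : IsRadFn D θ β) {σ : Ω ≃ₐ[F] Ω} (hσ : σ ∈ D.H) (hfix : σ β = β) :
    θ σ = 0 := by
  have h1 := h.2 σ hσ
  rw [hfix] at h1
  have h2 : D.ζp ^ (θ σ).val = 1 := by
    have h3 : (D.ζp ^ (θ σ).val - 1) * β = 0 := by rw [sub_mul, one_mul, ← h1, sub_self]
    rcases mul_eq_zero.mp h3 with h4 | h4
    · exact sub_eq_zero.mp h4
    · exact absurd h4 h.1
  have h3 := (D.hζp.pow_eq_one_iff_dvd _).mp h2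
  have h4 : (θ σ).val < p := ZMod.val_lt _
  have h5 : (θ σ).val = 0 := Nat.eq_zero_of_dvd_of_lt h3 h4
  exact (ZMod.val_eq_zero _).mp h5

theorem eq_zero_of_mem (h : IsRadFn D θ β) (hK : β ∈ D.K) : ∀ σ ∈ D.H, θ σ = 0 :=
  fun σ hσ => h.eq_zero_of_fixed hσ (hK σ hσ)

/-- Galois conjugation of radicals. -/
theorem conj (h : IsRadFn D θ β) (g : Ω ≃ₐ[F] Ω) {n : ℕ} (hg : g D.ζp = D.ζp ^ n) :
    IsRadFn D (fun σ => (n : ZMod p) * θ (g⁻¹ * σ * g)) (g β) := by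
  refine ⟨by rw [Ne, map_eq_zero_iff g g.injective]; exact h.1, fun σ hσ => ?_⟩
  have hmem : g⁻¹ * σ * g ∈ D.H := by
    have := D.normal.conj_mem σ hσ g⁻¹
    simpa using this
  have h1 : σ (g β) = g ((g⁻¹ * σ * g) β) := by
    simp [AlgEquiv.mul_apply]
  rw [h1, h.2 _ hmem, map_mul, map_pow, hg, pow_val_natCast_mul D.hζp.pow_eq_one]

end IsRadFn

variable [IsUltrametricDist Ω]

/-- `θ` has a radical whose `p`-th power lies in `(1 + p O_{F₁}) F₁^{×p}`, with leading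
coefficient `x`. -/
def LeadIs (θ : (Ω ≃ₐ[F] Ω) → ZMod p) (x : Res Ω) : Prop :=
  ∃ β c0 : Ω, IsRadFn D θ β ∧ c0 ∈ D.K ∧ c0 ≠ 0 ∧ ‖β ^ p / c0 ^ p - 1‖ ≤ ‖(p : Ω)‖ ∧
    lead p (β ^ p / c0 ^ p) = x

namespace LeadIs

variable {D} {θ θ₁ θ₂ θ' : (Ω ≃ₐ[F] Ω) → ZMod p} {x x₁ x₂ x' : Res Ω}

theorem congr (h : ∀ σ ∈ D.H, θ σ = θ' σ) (hx : LeadIs D θ x) : LeadIs D θ' x := by
  obtain ⟨β, c0, h1, h2⟩ := hx
  exact ⟨β, c0, h1.congr h, h2⟩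

theorem add (h₁ : LeadIs D θ₁ x₁) (h₂ : LeadIs D θ₂ x₂) :
    LeadIs D (fun σ => θ₁ σ + θ₂ σ) (x₁ + x₂) := by
  obtain ⟨β₁, c₁, hr₁, hc₁, hc₁0, hn₁, hl₁⟩ := h₁
  obtain ⟨β₂, c₂, hr₂, hc₂, hc₂0, hn₂, hl₂⟩ := h₂
  have hu : (β₁ * β₂) ^ p / (c₁ * c₂) ^ p = (β₁ ^ p / c₁ ^ p) * (β₂ ^ p / c₂ ^ p) := by
    rw [mul_pow, mul_pow, mul_div_mul_comm]
  refine ⟨β₁ * β₂, c₁ * c₂, hr₁.mul hr₂, D.K.mul_mem hc₁ hc₂, mul_ne_zero hc₁0 hc₂0, ?_, ?_⟩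
  · rw [hu]
    exact norm_mul_sub_one_le D.norm_p_pos D.norm_p_lt hn₁ hn₂
  · rw [hu, lead_mul D.norm_p_pos D.norm_p_lt hn₁ hn₂, hl₁, hl₂]

theorem unique (h : LeadIs D θ x) (h' : LeadIs D θ x') : x = x' := by
  obtain ⟨β, c, hr, hc, hc0, hn, hl⟩ := h
  obtain ⟨β', c', hr', hc', hc0', hn', hl'⟩ := h'
  have hp0 : p ≠ 0 := hp.out.ne_zero
  obtain ⟨u, hu⟩ : ∃ u, u = β ^ p / c ^ p := ⟨_, rfl⟩
  obtain ⟨u', hu'⟩ : ∃ u', u' = β' ^ p / c' ^ p := ⟨_, rfl⟩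
  rw [← hu] at hn hl
  rw [← hu'] at hn' hl'
  have hun : ‖u‖ = 1 := norm_eq_one_of_sub_one_lt (hn.trans_lt D.norm_p_lt)
  have hu0 : u ≠ 0 := by rintro h0; rw [h0, norm_zero] at hun; exact zero_ne_one hun
  obtain ⟨d, hd⟩ : ∃ d, d = (β' / β) * (c / c') := ⟨_, rfl⟩
  have hdK : d ∈ D.K := by
    rw [hd]; exact D.K.mul_mem (hr.div_mem hr') (D.K.div_mem hc hc')
  have hβ0 := hr.1
  have hβ0' := hr'.1
  have hud : u' = u * d ^ p := by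
    rw [hu, hu', hd, mul_pow, div_pow, div_pow]
    field_simp
  have hdn : ‖d ^ p - 1‖ ≤ ‖(p : Ω)‖ := by
    have h1 : d ^ p - 1 = (u' - u) / u := by
      rw [hud]; field_simp
    rw [h1, norm_div, hun, div_one]
    have h2 : u' - u = (u' - 1) - (u - 1) := by ring
    rw [h2]
    exact (norm_sub_le_max' _ _).trans (max_le hn' hn)
  have hlt : ‖d ^ p - 1‖ < ‖(p : Ω)‖ := by
    refine (D.pow_level hdK hdn).trans_lt ?_
    calc ‖(p : Ω)‖ * D.ρ < ‖(p : Ω)‖ * 1 := mul_lt_mul_of_pos_left D.ρ_lt_one D.norm_p_pos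
      _ = ‖(p : Ω)‖ := mul_one _
  have hld : lead p (d ^ p) = 0 := (lead_eq_zero_iff D.norm_p_pos hdn).mpr hlt
  rw [← hl, ← hl', hud, lead_mul D.norm_p_pos D.norm_p_lt hn hdn, hld, add_zero]

/-- Frobenius semilinearity of the leading coefficient. -/
theorem frob (h : LeadIs D θ x) :
    LeadIs D (fun σ => (D.gφ : ZMod p) * θ (D.φ⁻¹ * σ * D.φ)) (x ^ p) := by
  obtain ⟨β, c, hr, hc, hc0, hn, hl⟩ := h
  have hpne := D.p_ne_zero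
  obtain ⟨u, hu⟩ : ∃ u, u = β ^ p / c ^ p := ⟨_, rfl⟩
  rw [← hu] at hn hl
  have huK : u ∈ D.K := by rw [hu]; exact D.K.div_mem hr.pow_mem (D.K.pow_mem hc p)
  have hφu : (D.φ β) ^ p / (D.φ c) ^ p = D.φ u := by
    rw [hu, map_div₀, map_pow, map_pow]
  have hφ1 : D.φ u - 1 = D.φ (u - 1) := by rw [map_sub, map_one]
  refine ⟨D.φ β, D.φ c, hr.conj D.φ D.φζp, D.map_mem_K D.φ hc,
    by rw [Ne, map_eq_zero_iff D.φ D.φ.injective]; exact hc0, ?_, ?_⟩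
  · rw [hφu, hφ1, D.isom]
    exact hn
  · rw [hφu, ← hl]
    unfold lead
    obtain ⟨y, hy⟩ : ∃ y, y = (u - 1) / (p : Ω) := ⟨_, rfl⟩
    rw [← hy]
    have hyK : y ∈ D.K := by
      rw [hy]; exact D.K.div_mem (D.K.sub_mem huK D.K.one_mem) (D.natCast_mem p)
    have hy1 : ‖y‖ ≤ 1 := by rw [hy]; exact norm_div_p_le D.norm_p_pos hn
    have hφy : (D.φ u - 1) / (p : Ω) = D.φ y := by
      rw [hy, map_div₀, map_natCast, hφ1]
    have hyp : ‖y ^ p‖ ≤ 1 := by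
      rw [norm_pow]; exact pow_le_one₀ (norm_nonneg _) hy1
    rw [hφy, resOf_eq_of_norm_sub_lt hyp (D.φ_frob y hyK hy1), resOf_pow hy1]

/-- **A character with vanishing leading coefficient is unramified.** -/
theorem unram (h : LeadIs D θ 0) {σ : Ω ≃ₐ[F] Ω} (hσ : σ ∈ D.H) (hσI : OrdData.IsInert σ) :
    θ σ = 0 := by
  obtain ⟨β, c, hr, hc, hc0, hn, hl⟩ := h
  obtain ⟨u, hu⟩ : ∃ u, u = β ^ p / c ^ p := ⟨_, rfl⟩
  rw [← hu] at hn hl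
  have huK : u ∈ D.K := by rw [hu]; exact D.K.div_mem hr.pow_mem (D.K.pow_mem hc p)
  have hlt : ‖u - 1‖ < ‖(p : Ω)‖ := (lead_eq_zero_iff D.norm_p_pos hn).mp hl
  have hle : ‖u - 1‖ ≤ ‖D.ζp - 1‖ ^ p := by
    have h1 := D.disc_p (D.K.sub_mem huK D.K.one_mem) hlt
    rwa [← D.ρ_pow_p] at h1
  have hroot : (β / c) ^ p = u := by rw [div_pow, hu]
  have hfix : σ (β / c) = β / c :=
    root_fixed_of_inertia D.H D.hζp D.ζp_mem D.norm_p_lt D.norm_p_pos huK hle hroot hσ hσI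
  have hfixβ : σ β = β := by
    have h1 : β = (β / c) * c := by field_simp
    rw [h1, map_mul, hfix, hc σ hσ]
  exact hr.eq_zero_of_fixed hσ hfixβ

end LeadIs

end Fermat.Agent.TW.OrdCount
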